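import Mathlib

/-!
# The addition-and-subtraction map on `x`-coordinates does what it claims

For points `P`, `Q` of an elliptic curve over a field, `addSubMap (sym2x P Q)` is a nonzero multiple
of `sym2x (P + Q) (P - Q)`.
-/

set_option autoImplicit false

open WeierstrassCurve WeierstrassCurve.Affine WeierstrassCurve.Affine.Point

namespace Fermat.Agent.Ladder

variable {K : Type*} [Field K]

/-- Evaluation of `addSubMap`. -/
lemma eval_addSubMap (W : WeierstrassCurve K) (v : Fin 3 → K) :
    (fun i => MvPolynomial.eval v (W.addSubMap i)) =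
      ![v 0 ^ 2 - W.b₄ * v 0 * v 2 - W.b₆ * v 1 * v 2 - W.b₈ * v 2 ^ 2,
        2 * v 1 * v 0 + W.b₂ * v 0 * v 2 + W.b₄ * v 1 * v 2 + W.b₆ * v 2 ^ 2,
        v 1 ^ 2 - 4 * v 0 * v 2] := by
  funext i
  fin_cases i <;> simp [WeierstrassCurve.addSubMap]

/-- product formula -/
lemma addSub_prod (W : WeierstrassCurve K) {x₁ x₂ y₁ y₂ : K}
    (h₁ : W.toAffine.Equation x₁ y₁) (h₂ : W.toAffine.Equation x₂ y₂) (hx : x₁ ≠ x₂) :
    (x₁ - x₂) ^ 2 *
      ((((y₁ - y₂) / (x₁ - x₂)) ^ 2 + W.a₁ * ((y₁ - y₂) / (x₁ - x₂)) - W.a₂ - x₁ - x₂) *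
       (((y₁ - (-y₂ - W.a₁ * x₂ - W.a₃)) / (x₁ - x₂)) ^ 2 +
          W.a₁ * ((y₁ - (-y₂ - W.a₁ * x₂ - W.a₃)) / (x₁ - x₂)) - W.a₂ - x₁ - x₂)) =
      (x₁ * x₂) ^ 2 - W.b₄ * (x₁ * x₂) - W.b₆ * (x₁ + x₂) - W.b₈ := by
  rw [Affine.equation_iff] at h₁ h₂
  have hne : x₁ - x₂ ≠ 0 := sub_ne_zero.mpr hx
  simp only [WeierstrassCurve.b₄, WeierstrassCurve.b₆, WeierstrassCurve.b₈]
  field_simp
  grind

/-- sum formula -/
lemma addSub_sum (W : WeierstrassCurve K) {x₁ x₂ y₁ y₂ : K}
    (h₁ : W.toAffine.Equation x₁ y₁) (h₂ : W.toAffine.Equation x₂ y₂) (hx : x₁ ≠ x₂) :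
    (x₁ - x₂) ^ 2 *
      ((((y₁ - y₂) / (x₁ - x₂)) ^ 2 + W.a₁ * ((y₁ - y₂) / (x₁ - x₂)) - W.a₂ - x₁ - x₂) +
       (((y₁ - (-y₂ - W.a₁ * x₂ - W.a₃)) / (x₁ - x₂)) ^ 2 +
          W.a₁ * ((y₁ - (-y₂ - W.a₁ * x₂ - W.a₃)) / (x₁ - x₂)) - W.a₂ - x₁ - x₂)) =
      2 * (x₁ + x₂) * (x₁ * x₂) + W.b₂ * (x₁ * x₂) + W.b₄ * (x₁ + x₂) + W.b₆ := by
  rw [Affine.equation_iff] at h₁ h₂
  have hne : x₁ - x₂ ≠ 0 := sub_ne_zero.mpr hx
  simp only [WeierstrassCurve.b₂, WeierstrassCurve.b₄, WeierstrassCurve.b₆]
  field_simp
  grind

/-- `Ψ₂Sq` is the square of `ψ₂` on the curve. -/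
lemma psi2_sq (W : WeierstrassCurve K) {x y : K} (h : W.toAffine.Equation x y) :
    4 * x ^ 3 + W.b₂ * x ^ 2 + 2 * W.b₄ * x + W.b₆ = (y - (-y - W.a₁ * x - W.a₃)) ^ 2 := by
  rw [Affine.equation_iff] at h
  simp only [WeierstrassCurve.b₂, WeierstrassCurve.b₄, WeierstrassCurve.b₆]
  grind

/-- duplication formula -/
lemma dbl_formula (W : WeierstrassCurve K) {x y : K} (h : W.toAffine.Equation x y)
    (hy : y - (-y - W.a₁ * x - W.a₃) ≠ 0) :
    (4 * x ^ 3 + W.b₂ * x ^ 2 + 2 * W.b₄ * x + W.b₆) *
      (((3 * x ^ 2 + 2 * W.a₂ * x + W.a₄ - W.a₁ * y) / (y - (-y - W.a₁ * x - W.a₃))) ^ 2 +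
        W.a₁ * ((3 * x ^ 2 + 2 * W.a₂ * x + W.a₄ - W.a₁ * y) / (y - (-y - W.a₁ * x - W.a₃)))
        - W.a₂ - x - x) =
      x ^ 4 - W.b₄ * x ^ 2 - 2 * W.b₆ * x - W.b₈ := by
  rw [psi2_sq W h]
  rw [Affine.equation_iff] at h
  simp only [WeierstrassCurve.b₄, WeierstrassCurve.b₆, WeierstrassCurve.b₈]
  field_simp
  grind

variable [DecidableEq K]

/-- (A) Stoll's TODO: the addition-and-subtraction map on `x`-coordinates is correct. -/
theorem addSubMap_sym2x (W : WeierstrassCurve K) [W.IsElliptic] (P Q : W.toAffine.Point) :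
    ∃ c : K, c ≠ 0 ∧ (fun i => MvPolynomial.eval (P.sym2x Q) (W.addSubMap i)) =
      c • (P + Q).sym2x (P - Q) := by
  rw [eval_addSubMap]
  rcases P with _ | ⟨x₁, y₁, h₁⟩
  · rcases Q with _ | ⟨x₂, y₂, h₂⟩
    · refine ⟨1, one_ne_zero, ?_⟩
      rw [← zero_def]
      simp
    · refine ⟨1, one_ne_zero, ?_⟩
      rw [← zero_def]
      simp only [zero_add, zero_sub, sym2x_neg_right, sym2x_zero_some, sym2x_some_some, one_smul]
      funext i
      fin_cases i <;> simp <;> ring
  · rcases Q with _ | ⟨x₂, y₂, h₂⟩
    · refine ⟨1, one_ne_zero, ?_⟩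
      rw [← zero_def]
      simp only [add_zero, sub_zero, sym2x_some_zero, sym2x_some_some, one_smul]
      funext i
      fin_cases i <;> simp <;> ring
    · by_cases hx : x₁ = x₂
      · subst hx
        have hΨ := psi2_sq W h₁.1
        by_cases hy : y₁ = W.toAffine.negY x₁ y₂
        · -- `Q = -P`
          have hPQ : (some x₁ y₁ h₁ : W.toAffine.Point) + some x₁ y₂ h₂ = 0 := add_of_Y_eq rfl hy
          by_cases hy' : y₁ = y₂
          · -- `P` is 2-torsion, `Q = P`
            subst hy'
            have hsub : (some x₁ y₁ h₁ : W.toAffine.Point) - some x₁ y₁ h₁ = 0 := sub_self _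
            rw [hPQ, hsub]
            have hne := WeierstrassCurve.addSubMap_ne_zero W
              (x := ![x₁ * x₁, x₁ + x₁, 1]) (by
                intro h
                have := congrFun h 2
                simp at this)
            rw [eval_addSubMap] at hne
            have hzero : y₁ - (-y₁ - W.a₁ * x₁ - W.a₃) = 0 := by
              have := hy
              rw [Affine.negY] at this
              linear_combination this
            have hΨ0 : 4 * x₁ ^ 3 + W.b₂ * x₁ ^ 2 + 2 * W.b₄ * x₁ + W.b₆ = 0 := by
              rw [hΨ, hzero]; ring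
            refine ⟨x₁ ^ 4 - W.b₄ * x₁ ^ 2 - 2 * W.b₆ * x₁ - W.b₈, ?_, ?_⟩
            · intro hΦ
              apply hne
              funext i
              fin_cases i
              · simp only [Fin.zero_eta, Fin.isValue, Matrix.cons_val_zero, Matrix.cons_val_one,
                  Matrix.cons_val, Pi.zero_apply]
                linear_combination hΦ
              · simp only [Fin.mk_one, Fin.isValue, Matrix.cons_val_zero, Matrix.cons_val_one,
                  Matrix.cons_val, Pi.zero_apply]
                linear_combination hΨ0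
              · simp
                ring
            · simp only [sym2x_some_some, sym2x_zero_zero]
              funext i
              fin_cases i
              · simp
                ring
              · simp
                linear_combination hΨ0
              · simp
                ring
          · -- `Q = -P`, `P` not 2-torsion
            have hyn : y₁ ≠ W.toAffine.negY x₁ (W.toAffine.negY x₁ y₂) := by
              rw [Affine.negY_negY]; exact hy'
            have hsub : (some x₁ y₁ h₁ : W.toAffine.Point) - some x₁ y₂ h₂ =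
                some _ _ (nonsingular_add h₁ ((nonsingular_neg ..).mpr h₂)
                  fun hxy => hyn hxy.right) := by
              rw [sub_eq_add_neg, neg_some]
              exact add_of_Y_ne hyn
            rw [hPQ, hsub]
            have hy2 : W.toAffine.negY x₁ y₂ = y₁ := hy.symm
            have hne0 : y₁ - (-y₁ - W.a₁ * x₁ - W.a₃) ≠ 0 := by
              intro h0
              apply hy'
              have h1 : y₁ = -y₂ - W.a₁ * x₁ - W.a₃ := by
                have := hy; rw [Affine.negY] at this; exact this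
              linear_combination h0 - h1
            have hd := dbl_formula W h₁.1 hne0
            refine ⟨4 * x₁ ^ 3 + W.b₂ * x₁ ^ 2 + 2 * W.b₄ * x₁ + W.b₆, ?_, ?_⟩
            · rw [hΨ]; exact pow_ne_zero 2 hne0
            · simp only [sym2x_some_some, sym2x_zero_some]
              rw [slope_of_Y_ne rfl hyn]
              simp only [Affine.addX, Affine.negY]
              funext i
              fin_cases i
              · simp
                linear_combination -hd
              · simp
                ring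
              · simp
                ring
        · -- `Q = P`, `P` not 2-torsion
          have hyy : y₁ = y₂ := (Y_eq_of_X_eq h₁.1 h₂.1 rfl).resolve_right hy
          subst hyy
          have hPQ : (some x₁ y₁ h₁ : W.toAffine.Point) + some x₁ y₁ h₁ =
              some _ _ (nonsingular_add h₁ h₁ fun hxy => hy hxy.right) := add_of_Y_ne hy
          have hsub : (some x₁ y₁ h₁ : W.toAffine.Point) - some x₁ y₁ h₁ = 0 := sub_self _
          rw [hPQ, hsub]
          have hne0 : y₁ - (-y₁ - W.a₁ * x₁ - W.a₃) ≠ 0 := by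
            intro h0
            apply hy
            rw [Affine.negY]
            linear_combination h0
          have hd := dbl_formula W h₁.1 hne0
          refine ⟨4 * x₁ ^ 3 + W.b₂ * x₁ ^ 2 + 2 * W.b₄ * x₁ + W.b₆, ?_, ?_⟩
          · rw [hΨ]; exact pow_ne_zero 2 hne0
          · simp only [sym2x_some_some, sym2x_some_zero]
            rw [slope_of_Y_ne rfl hy]
            simp only [Affine.addX, Affine.negY]
            funext i
            fin_cases i
            · simp
              linear_combination -hd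
            · simp
              ring
            · simp
              ring
      · -- generic case
        have hPQ : (some x₁ y₁ h₁ : W.toAffine.Point) + some x₂ y₂ h₂ =
            some _ _ (nonsingular_add h₁ h₂ fun hxy => hx hxy.left) := add_of_X_ne hx
        have hsub : (some x₁ y₁ h₁ : W.toAffine.Point) - some x₂ y₂ h₂ =
            some _ _ (nonsingular_add h₁ ((nonsingular_neg ..).mpr h₂)
              fun hxy => hx hxy.left) := by
          rw [sub_eq_add_neg, neg_some]
          exact add_of_X_ne hx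
        rw [hPQ, hsub]
        have hp := addSub_prod W h₁.1 h₂.1 hx
        have hs := addSub_sum W h₁.1 h₂.1 hx
        refine ⟨(x₁ - x₂) ^ 2, pow_ne_zero 2 (sub_ne_zero.mpr hx), ?_⟩
        simp only [sym2x_some_some]
        rw [slope_of_X_ne hx, slope_of_X_ne hx]
        simp only [Affine.addX, Affine.negY]
        funext i
        fin_cases i
        · simp
          linear_combination -hp
        · simp
          linear_combination -hs
        · simp
          ring

end Fermat.Agent.Ladder
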