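import Fermat.Agent.Ladder.Top

/-!
# Ladder: degrees and leading coefficients of the ladder polynomials (helper7)

`F_n` is monic of degree `n²`, `G_n` has degree `n² - 1` and leading coefficient `n²`,
`torsPoly m` has degree `2m² + 2m = ((2m+1)² - 1)/2` and leading coefficient `-(2m+1)`.
-/

set_option autoImplicit false

namespace Fermat.Agent.Ladder

open Polynomial

variable {R : Type*} [CommRing R] (W : WeierstrassCurve R)

theorem top_dblF {F G : R[X]} {d : ℕ} {g : R} (hd : 1 ≤ d) (hF : Top F d 1) (hG : Top G (d - 1) g) :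
    Top (dblF W F G) (4 * d) 1 := by
  unfold dblF
  have h1 : Top (F ^ 4) (4 * d) 1 := (hF.pow 4).congr rfl (one_pow 4)
  have h2 : Top (C W.b₄ * F ^ 2 * G ^ 2) (4 * d) 0 :=
    (((hF.pow 2).C_mul W.b₄).mul (hG.pow 2)).of_lt (by omega)
  have h3 : Top (C (2 * W.b₆) * F * G ^ 3) (4 * d) 0 :=
    ((hF.C_mul (2 * W.b₆)).mul (hG.pow 3)).of_lt (by omega)
  have h4 : Top (C W.b₈ * G ^ 4) (4 * d) 0 := ((hG.pow 4).C_mul W.b₈).of_lt (by omega)
  exact (((h1.sub h2).sub h3).sub h4).congr rfl (by ring)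

theorem top_dblG {F G : R[X]} {d : ℕ} {g : R} (hd : 1 ≤ d) (hF : Top F d 1) (hG : Top G (d - 1) g) :
    Top (dblG W F G) (4 * d - 1) (4 * g) := by
  unfold dblG
  have e4 : (4 : R[X]) = C 4 := (map_ofNat C 4).symm
  have h1 : Top (4 * F ^ 3 * G) (4 * d - 1) (4 * g) := by
    rw [e4]
    exact (((hF.pow 3).C_mul 4).mul hG).congr (by omega) (by ring)
  have h2 : Top (C W.b₂ * F ^ 2 * G ^ 2) (4 * d - 1) 0 :=
    (((hF.pow 2).C_mul W.b₂).mul (hG.pow 2)).of_lt (by omega)
  have h3 : Top (C (2 * W.b₄) * F * G ^ 3) (4 * d - 1) 0 :=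
    ((hF.C_mul (2 * W.b₄)).mul (hG.pow 3)).of_lt (by omega)
  have h4 : Top (C W.b₆ * G ^ 4) (4 * d - 1) 0 := ((hG.pow 4).C_mul W.b₆).of_lt (by omega)
  exact (((h1.add h2).add h3).add h4).congr rfl (by ring)

theorem top_oddS {F G F' G' : R[X]} {d d' : ℕ} {g g' : R} (hd : 1 ≤ d) (hd' : 1 ≤ d')
    (hF : Top F d 1) (hG : Top G (d - 1) g) (hF' : Top F' d' 1) (hG' : Top G' (d' - 1) g') :
    Top (oddS F G F' G') (d + d' - 1) (g - g') := by
  unfold oddS
  have h1 : Top (F' * G) (d + d' - 1) g := (hF'.mul hG).congr (by omega) (by ring)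
  have h2 : Top (F * G') (d + d' - 1) g' := (hF.mul hG').congr (by omega) (by ring)
  exact h1.sub h2

theorem top_oddF {F G F' G' : R[X]} {d d' : ℕ} {g g' : R} (hd : 1 ≤ d) (hd' : 1 ≤ d')
    (hF : Top F d 1) (hG : Top G (d - 1) g) (hF' : Top F' d' 1) (hG' : Top G' (d' - 1) g') :
    Top (oddF W F G F' G') (2 * (d + d' - 1) + 1) (2 * (g + g') - (g - g') ^ 2) := by
  unfold oddF oddT
  have e2 : (2 : R[X]) = C 2 := (map_ofNat C 2).symm
  have hS := top_oddS hd hd' hF hG hF' hG'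
  have hP : Top (F' * G + F * G') (d + d' - 1) (g + g') :=
    ((hF'.mul hG).congr (by omega) (by ring)).add ((hF.mul hG').congr (by omega) (by ring))
  have hFF : Top (F' * F) (d' + d) 1 := (hF'.mul hF).congr rfl (by ring)
  have hGG : Top (G' * G) (d' - 1 + (d - 1)) (g' * g) := hG'.mul hG
  have h1 : Top (2 * (F' * G + F * G') * (F' * F)) (2 * (d + d' - 1) + 1) (2 * (g + g')) := by
    rw [e2]
    exact ((hP.C_mul 2).mul hFF).congr (by omega) (by ring)
  have h2 : Top (C W.b₂ * (F' * F) * (G' * G)) (2 * (d + d' - 1) + 1) 0 :=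
    ((hFF.C_mul W.b₂).mul hGG).of_lt (by omega)
  have h3 : Top (C W.b₄ * (F' * G + F * G') * (G' * G)) (2 * (d + d' - 1) + 1) 0 :=
    ((hP.C_mul W.b₄).mul hGG).of_lt (by omega)
  have h4 : Top (C W.b₆ * (G' * G) ^ 2) (2 * (d + d' - 1) + 1) 0 :=
    ((hGG.pow 2).C_mul W.b₆).of_lt (by omega)
  have h5 : Top (X * oddS F G F' G' ^ 2) (2 * (d + d' - 1) + 1) ((g - g') ^ 2) :=
    (hS.pow 2).X_mul
  exact ((((h1.add h2).add h3).add h4).sub h5).congr rfl (by ring)

/-- Joint statement for `F_n` and `G_n`. -/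
theorem top_LFG (n : ℕ) :
    Top (LF W n) (n ^ 2) 1 ∧ (1 ≤ n → Top (LG W n) (n ^ 2 - 1) ((n : R) ^ 2)) := by
  induction n using Nat.strong_induction_on with
  | _ n ih =>
    rcases Nat.lt_or_ge n 2 with hn | hn
    · interval_cases n
      · refine ⟨by simpa using Top.one, fun h => absurd h (by norm_num)⟩
      · refine ⟨by simpa using Top.X', fun _ => by simpa using Top.one⟩
    · rcases Nat.even_or_odd' n with ⟨m, rfl | rfl⟩
      · have hm : 1 ≤ m := by omega
        obtain ⟨hF, hG⟩ := ih m (by omega)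
        have hG := hG hm
        have hd : 1 ≤ m ^ 2 := Nat.one_le_pow _ _ hm
        have e : (2 * m) ^ 2 = 4 * m ^ 2 := by ring
        refine ⟨?_, fun _ => ?_⟩
        · rw [LF_even W m hm, e]
          exact top_dblF W hd hF hG
        · rw [LG_even W m hm, e]
          exact (top_dblG W hd hF hG).congr rfl (by push_cast; ring)
      · have hm : 1 ≤ m := by omega
        obtain ⟨hF, hG⟩ := ih m (by omega)
        obtain ⟨hF', hG'⟩ := ih (m + 1) (by omega)
        have hG := hG hm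
        have hG' := hG' (by omega)
        have hd : 1 ≤ m ^ 2 := Nat.one_le_pow _ _ hm
        have hd' : 1 ≤ (m + 1) ^ 2 := Nat.one_le_pow _ _ (by omega)
        have e' : (m + 1) ^ 2 = m ^ 2 + 2 * m + 1 := by ring
        have e : (2 * m + 1) ^ 2 = 4 * m ^ 2 + 4 * m + 1 := by ring
        refine ⟨?_, fun _ => ?_⟩
        · rw [LF_odd W m hm]
          exact (top_oddF W hd hd' hF hG hF' hG').congr (by omega) (by push_cast; ring)
        · rw [LG_odd W m hm]
          unfold torsPoly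
          exact ((top_oddS hd hd' hF hG hF' hG').pow 2).congr (by omega) (by push_cast; ring)

theorem top_LF (n : ℕ) : Top (LF W n) (n ^ 2) 1 := (top_LFG W n).1

theorem top_LG (n : ℕ) (hn : 1 ≤ n) : Top (LG W n) (n ^ 2 - 1) ((n : R) ^ 2) := (top_LFG W n).2 hn

theorem top_torsPoly (m : ℕ) (hm : 1 ≤ m) :
    Top (torsPoly W m) (2 * m ^ 2 + 2 * m) (-(2 * (m : R) + 1)) := by
  have hd : 1 ≤ m ^ 2 := Nat.one_le_pow _ _ hm
  have hd' : 1 ≤ (m + 1) ^ 2 := Nat.one_le_pow _ _ (by omega)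
  have e' : (m + 1) ^ 2 = m ^ 2 + 2 * m + 1 := by ring
  unfold torsPoly
  exact (top_oddS hd hd' (top_LF W m) (top_LG W m hm) (top_LF W (m + 1))
    (top_LG W (m + 1) (by omega))).congr (by omega) (by push_cast; ring)

end Fermat.Agent.Ladder
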