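import Fermat.Agent.Ladder.Defs

/-!
# Ladder: evaluation theorem (helper7)

For an affine point `P = (x, y)` and every `n`, `(F_n(x), G_n(x))` is a nonzero multiple of the
projective `x`-coordinate of `n • P`.  In particular `n • P = 0 ↔ G_n(x) = 0`.

The only geometric input is `AddSubSpec W` (correctness of Mathlib's `addSubMap`), which is proved
in `Fermat/Agent/Ladder/AddSub.lean` (`addSubMap_sym2x`); here it is a hypothesis.
-/

set_option autoImplicit false
set_option linter.unusedSectionVars false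

namespace Fermat.Agent.Ladder

open Polynomial WeierstrassCurve WeierstrassCurve.Affine

variable {K : Type*} [Field K] [DecidableEq K] (W : WeierstrassCurve K)

theorem sym2x_zero' (P Q : W.toAffine.Point) : P.sym2x Q 0 = P.xRep 0 * Q.xRep 0 := rfl

theorem sym2x_one' (P Q : W.toAffine.Point) :
    P.sym2x Q 1 = P.xRep 0 * Q.xRep 1 + P.xRep 1 * Q.xRep 0 := rfl

theorem sym2x_two' (P Q : W.toAffine.Point) : P.sym2x Q 2 = P.xRep 1 * Q.xRep 1 := rfl

theorem eval_addSubMap_zero (v : Fin 3 → K) :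
    MvPolynomial.eval v (W.addSubMap 0) =
      v 0 ^ 2 - W.b₄ * v 0 * v 2 - W.b₆ * v 1 * v 2 - W.b₈ * v 2 ^ 2 := by
  simp [WeierstrassCurve.addSubMap]

theorem eval_addSubMap_one (v : Fin 3 → K) :
    MvPolynomial.eval v (W.addSubMap 1) =
      2 * v 1 * v 0 + W.b₂ * v 0 * v 2 + W.b₄ * v 1 * v 2 + W.b₆ * v 2 ^ 2 := by
  simp [WeierstrassCurve.addSubMap]

theorem eval_addSubMap_two (v : Fin 3 → K) :
    MvPolynomial.eval v (W.addSubMap 2) = v 1 ^ 2 - 4 * v 0 * v 2 := by
  simp [WeierstrassCurve.addSubMap]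

theorem xRep_zero_zero : (0 : W.toAffine.Point).xRep 0 = 1 := rfl
theorem xRep_zero_one : (0 : W.toAffine.Point).xRep 1 = 0 := rfl
theorem xRep_some_zero {x y : K} (h : W.toAffine.Nonsingular x y) :
    (Point.some x y h).xRep 0 = x := rfl
theorem xRep_some_one {x y : K} (h : W.toAffine.Nonsingular x y) :
    (Point.some x y h).xRep 1 = 1 := rfl

/-- Correctness of Mathlib's `addSubMap`: it sends `sym2x P Q` to a nonzero multiple of
`sym2x (P + Q) (P - Q)`. -/
def AddSubSpec : Prop :=
  ∀ P Q : W.toAffine.Point, ∃ c : K, c ≠ 0 ∧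
    (fun i => MvPolynomial.eval (P.sym2x Q) (W.addSubMap i)) = c • (P + Q).sym2x (P - Q)

variable {W} (hA : AddSubSpec W)
include hA

/-- doubling in projective `x`-coordinates -/
theorem dbl_xRep (A : W.toAffine.Point) :
    ∃ c : K, c ≠ 0 ∧
      A.xRep 0 ^ 4 - W.b₄ * A.xRep 0 ^ 2 * A.xRep 1 ^ 2 - 2 * W.b₆ * A.xRep 0 * A.xRep 1 ^ 3
        - W.b₈ * A.xRep 1 ^ 4 = c * (A + A).xRep 0 ∧
      4 * A.xRep 0 ^ 3 * A.xRep 1 + W.b₂ * A.xRep 0 ^ 2 * A.xRep 1 ^ 2
        + 2 * W.b₄ * A.xRep 0 * A.xRep 1 ^ 3 + W.b₆ * A.xRep 1 ^ 4 = c * (A + A).xRep 1 := by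
  obtain ⟨c, hc, h⟩ := hA A A
  refine ⟨c, hc, ?_, ?_⟩
  · have h0 := congrFun h 0
    simp only [Pi.smul_apply, smul_eq_mul] at h0
    rw [eval_addSubMap_zero, sym2x_zero', sym2x_one', sym2x_two', sym2x_zero', sub_self,
      xRep_zero_zero, mul_one] at h0
    rw [← h0]; ring
  · have h1 := congrFun h 1
    simp only [Pi.smul_apply, smul_eq_mul] at h1
    rw [eval_addSubMap_one, sym2x_zero', sym2x_one', sym2x_two', sym2x_one', sub_self,
      xRep_zero_zero, xRep_zero_one, mul_one, mul_zero, zero_add] at h1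
    rw [← h1]; ring

/-- differential addition in projective `x`-coordinates: `A - B = (x, y)` affine. -/
theorem diffadd_xRep (A B : W.toAffine.Point) {x y : K} (h : W.toAffine.Nonsingular x y)
    (hAB : A - B = Point.some x y h) :
    ∃ c : K, c ≠ 0 ∧
      (2 * (A.xRep 0 * B.xRep 1 + B.xRep 0 * A.xRep 1) * (A.xRep 0 * B.xRep 0)
        + W.b₂ * (A.xRep 0 * B.xRep 0) * (A.xRep 1 * B.xRep 1)
        + W.b₄ * (A.xRep 0 * B.xRep 1 + B.xRep 0 * A.xRep 1) * (A.xRep 1 * B.xRep 1)
        + W.b₆ * (A.xRep 1 * B.xRep 1) ^ 2)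
        - x * (A.xRep 0 * B.xRep 1 - B.xRep 0 * A.xRep 1) ^ 2 = c * (A + B).xRep 0 ∧
      (A.xRep 0 * B.xRep 1 - B.xRep 0 * A.xRep 1) ^ 2 = c * (A + B).xRep 1 := by
  obtain ⟨c, hc, hh⟩ := hA A B
  have h1 := congrFun hh 1
  have h2 := congrFun hh 2
  simp only [Pi.smul_apply, smul_eq_mul] at h1 h2
  rw [eval_addSubMap_one, sym2x_zero', sym2x_one', sym2x_two', sym2x_one', hAB,
    xRep_some_zero, xRep_some_one, mul_one] at h1
  rw [eval_addSubMap_two, sym2x_zero', sym2x_one', sym2x_two', sym2x_two', hAB,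
    xRep_some_one, mul_one] at h2
  refine ⟨c, hc, ?_, ?_⟩
  · linear_combination h1 - x * h2
  · linear_combination h2

end Fermat.Agent.Ladder

namespace Fermat.Agent.Ladder

open Polynomial WeierstrassCurve WeierstrassCurve.Affine

variable {K : Type*} [Field K] [DecidableEq K] {W : WeierstrassCurve K} (hA : AddSubSpec W)
include hA

/-- **Ladder evaluation theorem.** -/
theorem ladder_eval {x y : K} (h : W.toAffine.Nonsingular x y) (n : ℕ) :
    ∃ c : K, c ≠ 0 ∧ (LF W n).eval x = c * (n • Point.some x y h).xRep 0 ∧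
      (LG W n).eval x = c * (n • Point.some x y h).xRep 1 := by
  induction n using Nat.strong_induction_on with
  | _ n ih =>
    rcases Nat.lt_or_ge n 2 with hn | hn
    · interval_cases n
      · refine ⟨1, one_ne_zero, ?_, ?_⟩
        · rw [zero_smul, xRep_zero_zero]; simp
        · rw [zero_smul, xRep_zero_one]; simp
      · refine ⟨1, one_ne_zero, ?_, ?_⟩
        · rw [one_smul, xRep_some_zero]; simp
        · rw [one_smul, xRep_some_one]; simp
    · rcases Nat.even_or_odd' n with ⟨m, rfl | rfl⟩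
      · have hm : 1 ≤ m := by omega
        obtain ⟨c₁, hc₁, hF, hG⟩ := ih m (by omega)
        obtain ⟨c', hc', e0, e1⟩ := dbl_xRep hA (m • Point.some x y h)
        have hsum : m • Point.some x y h + m • Point.some x y h = (2 * m) • Point.some x y h := by
          rw [two_mul, add_smul]
        rw [hsum] at e0 e1
        refine ⟨c₁ ^ 4 * c', mul_ne_zero (pow_ne_zero _ hc₁) hc', ?_, ?_⟩
        · rw [LF_even W m hm]
          simp only [dblF, eval_sub, eval_mul, eval_pow, eval_C, hF, hG]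
          linear_combination c₁ ^ 4 * e0
        · rw [LG_even W m hm]
          simp only [dblG, eval_add, eval_mul, eval_pow, eval_C, eval_ofNat, hF, hG]
          linear_combination c₁ ^ 4 * e1
      · have hm : 1 ≤ m := by omega
        obtain ⟨c₂, hc₂, hF, hG⟩ := ih m (by omega)
        obtain ⟨c₁, hc₁, hF', hG'⟩ := ih (m + 1) (by omega)
        have hAB : (m + 1) • Point.some x y h - m • Point.some x y h = Point.some x y h := by
          rw [add_smul, one_smul]; abel
        obtain ⟨c', hc', e0, e1⟩ := diffadd_xRep hA _ _ h hAB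
        have hsum : (m + 1) • Point.some x y h + m • Point.some x y h
            = (2 * m + 1) • Point.some x y h := by
          rw [← add_smul]; congr 1; ring
        rw [hsum] at e0 e1
        refine ⟨(c₁ * c₂) ^ 2 * c', mul_ne_zero (pow_ne_zero _ (mul_ne_zero hc₁ hc₂)) hc', ?_, ?_⟩
        · rw [LF_odd W m hm]
          simp only [oddF, oddT, oddS, eval_sub, eval_add, eval_mul, eval_pow, eval_C, eval_X,
            eval_ofNat, hF, hG, hF', hG']
          linear_combination (c₁ * c₂) ^ 2 * e0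
        · rw [LG_odd W m hm]
          simp only [torsPoly, oddS, eval_sub, eval_mul, eval_pow, hF, hG, hF', hG']
          linear_combination (c₁ * c₂) ^ 2 * e1

/-- `n • P = 0` iff `G_n` vanishes at `x(P)`. -/
theorem nsmul_eq_zero_iff {x y : K} (h : W.toAffine.Nonsingular x y) (n : ℕ) :
    n • Point.some x y h = 0 ↔ (LG W n).eval x = 0 := by
  obtain ⟨c, hc, -, hG⟩ := ladder_eval hA h n
  rw [hG]
  constructor
  · intro h0
    rw [h0, xRep_zero_one, mul_zero]
  · intro h0
    rcases mul_eq_zero.mp h0 with h1 | h1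
    · exact absurd h1 hc
    · rcases hP : n • Point.some x y h with _ | ⟨x', y', h'⟩
      · rfl
      · rw [hP, xRep_some_one] at h1
        exact absurd h1 one_ne_zero

/-- For odd `n = 2m+1`: `n • P = 0` iff the torsion polynomial vanishes at `x(P)`. -/
theorem odd_nsmul_eq_zero_iff {x y : K} (h : W.toAffine.Nonsingular x y) (m : ℕ) (hm : 1 ≤ m) :
    (2 * m + 1) • Point.some x y h = 0 ↔ (torsPoly W m).eval x = 0 := by
  rw [nsmul_eq_zero_iff hA, LG_odd W m hm, eval_pow]
  exact pow_eq_zero_iff (by norm_num)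

end Fermat.Agent.Ladder
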