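import Fermat.Agent.Ladder.Defs

/-!
# Ladder: naturality of the ladder polynomials under ring homomorphisms (helper7)
-/

set_option autoImplicit false

namespace Fermat.Agent.Ladder

open Polynomial

variable {R S : Type*} [CommRing R] [CommRing S] (W : WeierstrassCurve R) (f : R →+* S)

theorem map_dblF (F G : R[X]) :
    (dblF W F G).map f = dblF (W.map f) (F.map f) (G.map f) := by
  simp [dblF, map_ofNat]

theorem map_dblG (F G : R[X]) :
    (dblG W F G).map f = dblG (W.map f) (F.map f) (G.map f) := by
  simp [dblG, map_ofNat]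

theorem map_oddS (F G F' G' : R[X]) :
    (oddS F G F' G').map f = oddS (F.map f) (G.map f) (F'.map f) (G'.map f) := by
  simp [oddS]

theorem map_oddF (F G F' G' : R[X]) :
    (oddF W F G F' G').map f = oddF (W.map f) (F.map f) (G.map f) (F'.map f) (G'.map f) := by
  simp [oddF, oddT, oddS]

theorem map_LFG (n : ℕ) :
    LF (W.map f) n = (LF W n).map f ∧ LG (W.map f) n = (LG W n).map f := by
  induction n using Nat.strong_induction_on with
  | _ n ih =>
    rcases Nat.lt_or_ge n 2 with hn | hn
    · interval_cases n
      · simp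
      · simp
    · rcases Nat.even_or_odd' n with ⟨m, rfl | rfl⟩
      · have hm : 1 ≤ m := by omega
        obtain ⟨hF, hG⟩ := ih m (by omega)
        rw [LF_even _ m hm, LG_even _ m hm, LF_even _ m hm, LG_even _ m hm, map_dblF, map_dblG,
          hF, hG]
        exact ⟨rfl, rfl⟩
      · have hm : 1 ≤ m := by omega
        obtain ⟨hF, hG⟩ := ih m (by omega)
        obtain ⟨hF', hG'⟩ := ih (m + 1) (by omega)
        rw [LF_odd _ m hm, LG_odd _ m hm, LF_odd _ m hm, LG_odd _ m hm, map_oddF]
        unfold torsPoly
        rw [Polynomial.map_pow, map_oddS, hF, hG, hF', hG']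
        exact ⟨rfl, rfl⟩

theorem map_LF (n : ℕ) : LF (W.map f) n = (LF W n).map f := (map_LFG W f n).1

theorem map_LG (n : ℕ) : LG (W.map f) n = (LG W n).map f := (map_LFG W f n).2

theorem map_torsPoly (m : ℕ) : torsPoly (W.map f) m = (torsPoly W m).map f := by
  unfold torsPoly
  rw [map_oddS, map_LF, map_LG, map_LF, map_LG]

end Fermat.Agent.Ladder
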