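import Mathlib.AlgebraicGeometry.EllipticCurve.Affine.AddSubMap
import Mathlib.Algebra.Polynomial.Degree.Lemmas

/-!
# The x-only ladder polynomials of a Weierstrass curve (helper7)

`LFG W n = (F_n, G_n)` with `x(n • P) = F_n(x(P)) / G_n(x(P))`, defined by the x-only
doubling and differential-addition formulas (Mathlib's `addSubMap`).  No division is ever needed.
-/

set_option autoImplicit false

namespace Fermat.Agent.Ladder

open Polynomial

variable {R : Type*} [CommRing R] (W : WeierstrassCurve R)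

/-- Numerator of the doubling formula. -/
noncomputable def dblF (F G : R[X]) : R[X] :=
  F ^ 4 - C W.b₄ * F ^ 2 * G ^ 2 - C (2 * W.b₆) * F * G ^ 3 - C W.b₈ * G ^ 4

/-- Denominator of the doubling formula. -/
noncomputable def dblG (F G : R[X]) : R[X] :=
  4 * F ^ 3 * G + C W.b₂ * F ^ 2 * G ^ 2 + C (2 * W.b₄) * F * G ^ 3 + C W.b₆ * G ^ 4

/-- `S = F' G - F G'`: its square is the denominator of the differential addition. -/
noncomputable def oddS (F G F' G' : R[X]) : R[X] := F' * G - F * G'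

/-- Numerator of `x(A+B) + x(A-B)`. -/
noncomputable def oddT (F G F' G' : R[X]) : R[X] :=
  2 * (F' * G + F * G') * (F' * F) + C W.b₂ * (F' * F) * (G' * G)
    + C W.b₄ * (F' * G + F * G') * (G' * G) + C W.b₆ * (G' * G) ^ 2

/-- Numerator of the differential addition (`x(A - B) = X`). -/
noncomputable def oddF (F G F' G' : R[X]) : R[X] := oddT W F G F' G' - X * oddS F G F' G' ^ 2

/-- The ladder polynomials `(F_n, G_n)`. -/
noncomputable def LFG : ℕ → R[X] × R[X]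
  | 0 => (1, 0)
  | 1 => (X, 1)
  | (n + 2) =>
    if h : (n + 2) % 2 = 0 then
      (dblF W (LFG ((n + 2) / 2)).1 (LFG ((n + 2) / 2)).2,
        dblG W (LFG ((n + 2) / 2)).1 (LFG ((n + 2) / 2)).2)
    else
      (oddF W (LFG ((n + 2) / 2)).1 (LFG ((n + 2) / 2)).2
          (LFG ((n + 2) / 2 + 1)).1 (LFG ((n + 2) / 2 + 1)).2,
        oddS (LFG ((n + 2) / 2)).1 (LFG ((n + 2) / 2)).2
          (LFG ((n + 2) / 2 + 1)).1 (LFG ((n + 2) / 2 + 1)).2 ^ 2)
  decreasing_by all_goals omega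

/-- `F_n`. -/
noncomputable def LF (n : ℕ) : R[X] := (LFG W n).1
/-- `G_n`. -/
noncomputable def LG (n : ℕ) : R[X] := (LFG W n).2

/-- The odd torsion polynomial `S_{2m+1} = F_{m+1} G_m - F_m G_{m+1}` (so `G_{2m+1} = S²`). -/
noncomputable def torsPoly (m : ℕ) : R[X] := oddS (LF W m) (LG W m) (LF W (m + 1)) (LG W (m + 1))

@[simp] theorem LF_zero : LF W 0 = 1 := by simp [LF, LFG]
@[simp] theorem LG_zero : LG W 0 = 0 := by simp [LF, LG, LFG]
@[simp] theorem LF_one : LF W 1 = X := by simp [LF, LFG]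
@[simp] theorem LG_one : LG W 1 = 1 := by simp [LG, LFG]

theorem LF_even (m : ℕ) (hm : 1 ≤ m) : LF W (2 * m) = dblF W (LF W m) (LG W m) := by
  obtain ⟨k, rfl⟩ : ∃ k, m = k + 1 := ⟨m - 1, by omega⟩
  have e : 2 * (k + 1) = 2 * k + 2 := by ring
  rw [e]
  unfold LF LG
  rw [LFG]
  have h1 : (2 * k + 2) % 2 = 0 := by omega
  have h2 : (2 * k + 2) / 2 = k + 1 := by omega
  simp only [h1, h2, dite_true]

theorem LG_even (m : ℕ) (hm : 1 ≤ m) : LG W (2 * m) = dblG W (LF W m) (LG W m) := by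
  obtain ⟨k, rfl⟩ : ∃ k, m = k + 1 := ⟨m - 1, by omega⟩
  have e : 2 * (k + 1) = 2 * k + 2 := by ring
  rw [e]
  unfold LF LG
  rw [LFG]
  have h1 : (2 * k + 2) % 2 = 0 := by omega
  have h2 : (2 * k + 2) / 2 = k + 1 := by omega
  simp only [h1, h2, dite_true]

theorem LF_odd (m : ℕ) (hm : 1 ≤ m) :
    LF W (2 * m + 1) = oddF W (LF W m) (LG W m) (LF W (m + 1)) (LG W (m + 1)) := by
  obtain ⟨k, rfl⟩ : ∃ k, m = k + 1 := ⟨m - 1, by omega⟩
  have e : 2 * (k + 1) + 1 = (2 * k + 1) + 2 := by ring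
  rw [e]
  unfold LF LG
  rw [LFG]
  have h1 : ¬ ((2 * k + 1 + 2) % 2 = 0) := by omega
  have h2 : (2 * k + 1 + 2) / 2 = k + 1 := by omega
  simp only [h1, h2, dite_false]

theorem LG_odd (m : ℕ) (hm : 1 ≤ m) : LG W (2 * m + 1) = torsPoly W m ^ 2 := by
  obtain ⟨k, rfl⟩ : ∃ k, m = k + 1 := ⟨m - 1, by omega⟩
  have e : 2 * (k + 1) + 1 = (2 * k + 1) + 2 := by ring
  rw [e]
  unfold torsPoly LF LG
  rw [LFG]
  have h1 : ¬ ((2 * k + 1 + 2) % 2 = 0) := by omega
  have h2 : (2 * k + 1 + 2) / 2 = k + 1 := by omega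
  simp only [h1, h2, dite_false]

end Fermat.Agent.Ladder
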