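import Fermat.Agent.Ladder.Defs

/-!
# Ladder: a small calculus of "degree ≤ d with coefficient c at d" (helper7)
-/

set_option autoImplicit false

namespace Fermat.Agent.Ladder

open Polynomial

variable {R : Type*} [CommRing R]

/-- `p` has degree at most `d` and coefficient `c` in degree `d`. -/
structure Top (p : R[X]) (d : ℕ) (c : R) : Prop where
  le : p.natDegree ≤ d
  co : p.coeff d = c

namespace Top

variable {p q : R[X]} {d e : ℕ} {c c' : R}

theorem mul (hp : Top p d c) (hq : Top q e c') : Top (p * q) (d + e) (c * c') :=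
  ⟨natDegree_mul_le_of_le hp.le hq.le, by
    rw [coeff_mul_add_eq_of_natDegree_le hp.le hq.le, hp.co, hq.co]⟩

theorem pow (hp : Top p d c) (k : ℕ) : Top (p ^ k) (k * d) (c ^ k) :=
  ⟨natDegree_pow_le_of_le k hp.le, by
    rw [coeff_pow_of_natDegree_le hp.le, hp.co]⟩

theorem add (hp : Top p d c) (hq : Top q d c') : Top (p + q) d (c + c') :=
  ⟨natDegree_add_le_of_degree_le hp.le hq.le, by rw [coeff_add, hp.co, hq.co]⟩

theorem sub (hp : Top p d c) (hq : Top q d c') : Top (p - q) d (c - c') :=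
  ⟨(natDegree_sub_le_of_le hp.le hq.le).trans (by simp), by rw [coeff_sub, hp.co, hq.co]⟩

theorem of_lt (hp : Top p d c) (h : d < e) : Top p e 0 :=
  ⟨hp.le.trans h.le, coeff_eq_zero_of_natDegree_lt (lt_of_le_of_lt hp.le h)⟩

theorem C_mul (a : R) (hp : Top p d c) : Top (C a * p) d (a * c) :=
  ⟨(natDegree_C_mul_le a p).trans hp.le, by rw [coeff_C_mul, hp.co]⟩

theorem X_mul (hp : Top p d c) : Top (X * p) (d + 1) c :=
  ⟨by
    refine (natDegree_mul_le (p := X) (q := p)).trans ?_
    have h1 := natDegree_X_le (R := R)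
    have h2 := hp.le
    omega, by rw [coeff_X_mul, hp.co]⟩

theorem ofNat_mul (k : ℕ) (hp : Top p d c) : Top ((k : R[X]) * p) d ((k : R) * c) := by
  have : ((k : R[X])) = C (k : R) := (map_natCast C k).symm
  rw [this]
  exact hp.C_mul _

theorem congr (hp : Top p d c) (hd : d = e) (hc : c = c') : Top p e c' := hd ▸ hc ▸ hp

theorem natDegree_eq [Nontrivial R] (hp : Top p d c) (hc : c ≠ 0) : p.natDegree = d :=
  le_antisymm hp.le (le_natDegree_of_ne_zero (by rw [hp.co]; exact hc))

theorem leadingCoeff_eq [Nontrivial R] (hp : Top p d c) (hc : c ≠ 0) : p.leadingCoeff = c := by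
  rw [leadingCoeff, hp.natDegree_eq hc, hp.co]

theorem one : Top (1 : R[X]) 0 1 := ⟨by simp, by simp⟩
theorem X' : Top (X : R[X]) 1 1 := ⟨natDegree_X_le, by simp⟩
theorem zero (d : ℕ) : Top (0 : R[X]) d 0 := ⟨by simp, by simp⟩

end Top

end Fermat.Agent.Ladder
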